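/-
Programme T1B (S44), brick 528 (F8 HECKE-N), input of slice S6 KER (helper16).

THE SEPARABILITY LEMMA OF REPORT 917 (d) IS ALREADY IN THE LIBRARY: `RED/PUR/SepLaurent25`
(helper25, Program H).  This file packages it in the shape needed by S6 KER, with NO `p`-basis
hypothesis: for `κ` perfect of characteristic `p`, `x ∈ κ((q))` nonzero of order prime to `p`
(e.g. `x = j̃`, order `-1`) and ANY intermediate field `κ ⊆ E ⊆ κ((q))` containing `x` and algebraic
over `κ(x)` (e.g. the function field of a component, finite over `κ(j̃)`):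

* `mem_of_pow_mem_of_isAlgebraic` : `w ^ p ∈ E → w ∈ E`        (`E ∩ κ((q))^p = E^p`);
* `exists_mem_pow_eq_of_theta_eq_zero` : `f ∈ E`, `θ f = 0` ⟹ `∃ g ∈ E, f = g ^ p`;
* `exists_mem_pow_eq_of_dlog_eq_zero`  : `f ∈ E`, `f ≠ 0`, `θ f * f⁻¹ = 0` ⟹ `∃ g ∈ E, f = g ^ p`;
* `isAlgebraic_of_finiteDimensional` : the algebraicity hypothesis from finite-dimensionality of
  `E` over `κ(x)` (as `IntermediateField`s of `κ((q))`).
-/
import Mathlib
import Fermat.Agent.RED.PUR.SepLaurent25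
import Fermat.Agent.T1B.Hecke7.DlogAlg

set_option autoImplicit false

noncomputable section

open HahnSeries IntermediateField

namespace Fermat.Agent.T1B.Hecke16

open Fermat.Agent.RED.PUR.SepLaurent25 Fermat.Agent.IG.PR.Theta20

variable {k : Type*} [Field k] (p : ℕ) [hp : Fact p.Prime] [CharP k p] [PerfectField k]

/-- **Closure under `p`-th roots**: an intermediate field `E` of `k((q))/k`, algebraic over `k(x)`
with `ord x` prime to `p`, contains every `w ∈ k((q))` with `w ^ p ∈ E`. -/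
theorem mem_of_pow_mem_of_isAlgebraic {x : LaurentSeries k} (hx0 : x ≠ 0)
    (hx : IsCoprime x.order (p : ℤ)) (E : IntermediateField k (LaurentSeries k)) (hxE : x ∈ E)
    (halg : ∀ f ∈ E, IsAlgebraic k⟮x⟯ f) {w : LaurentSeries k} (hw : w ^ p ∈ E) : w ∈ E := by
  have hsep : IsSeparable k⟮x⟯ (w ^ p) := isSeparable_of_isAlgebraic p hx0 hx (halg _ hw)
  have : FiniteDimensional k⟮x⟯ (k⟮x⟯⟮w ^ p⟯) := adjoin.finiteDimensional hsep.isIntegral
  have : Algebra.IsSeparable k⟮x⟯ (k⟮x⟯⟮w ^ p⟯) :=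
    (isSeparable_adjoin_simple_iff_isSeparable _ _).2 hsep
  have hw' : w ∈ k⟮x⟯⟮w ^ p⟯ := mem_of_pow_mem p hx0 hx _ (mem_adjoin_simple_self _ _)
  have hle : k⟮x⟯ ≤ E := adjoin_simple_le_iff.2 hxE
  have hle2 : k⟮x⟯⟮w ^ p⟯ ≤ extendScalars hle :=
    adjoin_simple_le_iff.2 ((mem_extendScalars hle).2 hw)
  exact (mem_extendScalars hle).1 (hle2 hw')

/-- Special case `ord x = -1` (`x = j̃`, or a Hauptmodul). -/
theorem mem_of_pow_mem_of_order {x : LaurentSeries k} (hx : x.order = -1)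
    (E : IntermediateField k (LaurentSeries k)) (hxE : x ∈ E)
    (halg : ∀ f ∈ E, IsAlgebraic k⟮x⟯ f) {w : LaurentSeries k} (hw : w ^ p ∈ E) : w ∈ E := by
  refine mem_of_pow_mem_of_isAlgebraic p ?_ ?_ E hxE halg hw
  · rintro rfl
    rw [order_zero] at hx
    omega
  · rw [hx]
    exact (isCoprime_one_left (x := (p : ℤ))).neg_left

/-- **(KER-SEP)** `f ∈ E` with `θ f = 0` is the `p`-th power of an element OF `E`. -/
theorem exists_mem_pow_eq_of_theta_eq_zero {x : LaurentSeries k} (hx0 : x ≠ 0)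
    (hx : IsCoprime x.order (p : ℤ)) (E : IntermediateField k (LaurentSeries k)) (hxE : x ∈ E)
    (halg : ∀ f ∈ E, IsAlgebraic k⟮x⟯ f) {f : LaurentSeries k} (hf : f ∈ E)
    (hθ : theta f = 0) : ∃ g ∈ E, f = g ^ p := by
  obtain ⟨g, rfl⟩ := (Fermat.Agent.T1B.Hecke7.theta_eq_zero_iff_pow p f).1 hθ
  exact ⟨g, mem_of_pow_mem_of_isAlgebraic p hx0 hx E hxE halg hf, rfl⟩

/-- **(KER-SEP), dlog form**: `f ∈ E` nonzero with `θ f / f = 0` is a `p`-th power in `E`. -/
theorem exists_mem_pow_eq_of_dlog_eq_zero {x : LaurentSeries k} (hx0 : x ≠ 0)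
    (hx : IsCoprime x.order (p : ℤ)) (E : IntermediateField k (LaurentSeries k)) (hxE : x ∈ E)
    (halg : ∀ f ∈ E, IsAlgebraic k⟮x⟯ f) {f : LaurentSeries k} (hf : f ∈ E) (hf0 : f ≠ 0)
    (hd : theta f * f⁻¹ = 0) : ∃ g ∈ E, f = g ^ p := by
  refine exists_mem_pow_eq_of_theta_eq_zero p hx0 hx E hxE halg hf ?_
  rcases mul_eq_zero.1 hd with h | h
  · exact h
  · exact absurd (inv_eq_zero.1 h) hf0

omit [PerfectField k] [CharP k p] hp in
/-- The algebraicity hypothesis, from finiteness: if `E` (as an intermediate field of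
`k((q))/k(x)`) is finite-dimensional over `k(x)`, every element of `E` is algebraic over `k(x)`. -/
theorem isAlgebraic_of_finiteDimensional {x : LaurentSeries k}
    (E : IntermediateField k (LaurentSeries k)) (hxE : x ∈ E)
    [FiniteDimensional k⟮x⟯ (extendScalars (adjoin_simple_le_iff.2 hxE : k⟮x⟯ ≤ E))] :
    ∀ f ∈ E, IsAlgebraic k⟮x⟯ f := by
  intro f hf
  have h : IsAlgebraic k⟮x⟯
      (⟨f, (mem_extendScalars _).2 hf⟩ : extendScalars (adjoin_simple_le_iff.2 hxE : k⟮x⟯ ≤ E)) :=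
    Algebra.IsAlgebraic.isAlgebraic _
  exact h.algebraMap (A := LaurentSeries k)

end Fermat.Agent.T1B.Hecke16
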