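/-
Programme T1B (S44), brick 528 (F8 HECKE-N), input of slices S6 KER / S3 GAUSS (helper16).

THE RESIDUE FIELD `k_i` OF THE GAUSS RING OF AN EXPANSION (vocabulary of `Hecke3/GaussVal`):
for a valuation subring `A` of `K` (not necessarily discrete), an expansion `e : F →+* K((q))` and
constants `ι : K →+* F`, `e (ι c) = c`:

* `constA`            : `A →+* gaussSub A e`, with `gaussRes (constA c) = c̄`;
* `exists_primitive_scaling` : a nonzero `P ∈ K[X][Y]` becomes, after multiplication by a nonzero
  constant, a polynomial over `A` with NONZERO reduction (valuation rings: some coefficient has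
  maximal valuation);
* `isAlgebraic_gaussRes` **(RES-ALG)** : if `x, f` lie in the Gauss ring, `P(x, f) = 0` for a nonzero
  `P ∈ K[X][Y]` and the residue `x̄` is transcendental over `κ`, then the residue `f̄` is algebraic
  over `κ(x̄) ⊆ κ((q))`;
* `resField`          : `k = range gaussRes` as an `IntermediateField κ κ((q))` (no normalisability
  hypothesis is needed: elements with nonzero residue are invertible in the Gauss ring);
* `resField_isAlgebraic` : `k` is algebraic over `κ(x̄)` as soon as `F` is algebraic over `K(x)`;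
* `exists_gaussRes_pow_eq` **(KER-RES)** : `κ` perfect of characteristic `p`, `ord x̄` prime to `p`:
  a Gauss element `u` with `θ ū = 0` has `ū = v̄ ^ p` for a Gauss element `v`
  (`k ∩ κ((q))^p = k^p`): the step '(d) KERNEL' of report 917 on each side.
-/
import Mathlib
import Fermat.Agent.T1B.Hecke3.GaussVal
import Fermat.Agent.T1B.Hecke16.SepKer
import Fermat.Agent.RED.PUR.G1Sep8
import Fermat.Agent.RED.BASE.TBridge15

set_option autoImplicit false

noncomputable section

open HahnSeries Polynomial IntermediateField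

namespace Fermat.Agent.T1B.Hecke16

open Fermat.Agent.T1B.Hecke3 Fermat.Agent.IG.PR.Theta20

/-! ### Generic: algebraic dependence over `κ(x)` from a two-variable relation -/

section Generic

variable {κ 𝕂 : Type*} [Field κ] [Field 𝕂] [Algebra κ 𝕂]

/-- If `Q(x, y) = 0` for a nonzero `Q ∈ κ[X][Y]` and `x` is transcendental over `κ`, then `y` is
algebraic over `κ(x)`. -/
theorem isAlgebraic_adjoin_simple_of_eval₂ {x y : 𝕂} (hx : Transcendental κ x) (Q : κ[X][X])
    (hQ : Q ≠ 0) (h : Q.eval₂ (aeval x : κ[X] →ₐ[κ] 𝕂).toRingHom y = 0) :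
    IsAlgebraic κ⟮x⟯ y := by
  set φ : κ[X] →+* κ⟮x⟯ := (aeval (AdjoinSimple.gen κ x) : κ[X] →ₐ[κ] κ⟮x⟯).toRingHom with hφ
  have hcomp : (algebraMap κ⟮x⟯ 𝕂).comp φ = (aeval x : κ[X] →ₐ[κ] 𝕂).toRingHom := by
    apply Polynomial.ringHom_ext
    · intro a
      simp [hφ]
    · simp [hφ]
  have hinj : Function.Injective φ := by
    have h1 : Function.Injective (⇑(algebraMap κ⟮x⟯ 𝕂) ∘ ⇑φ) := by
      rw [← RingHom.coe_comp, hcomp]
      exact transcendental_iff_injective.1 hx
    exact Function.Injective.of_comp h1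
  refine ⟨Q.map φ, (Polynomial.map_ne_zero_iff hinj).2 hQ, ?_⟩
  rw [aeval_def, Polynomial.eval₂_map, hcomp]
  exact h

end Generic

variable {K : Type*} [Field K] {F : Type*} [Field F]
variable (A : ValuationSubring K) (e : F →+* LaurentSeries K)
variable (ι : K →+* F) (hι : ∀ c : K, e (ι c) = HahnSeries.C c)

/-! ### Constants in the Gauss ring -/

include hι in
theorem isIntRep_const (c : ↥A) : IsIntRep A e (ι (c : K)) (HahnSeries.C c) 1 := by
  refine ⟨by rw [map_one]; exact one_ne_zero, ?_⟩
  rw [hι, map_one, mul_one, coeffMap_C']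
  rfl

/-- the constants `A → O` of the Gauss ring. -/
def constA : ↥A →+* gaussSub A e where
  toFun c := ⟨ι (c : K), ⟨_, _, isIntRep_const A e ι hι c⟩⟩
  map_one' := Subtype.ext (by simp)
  map_mul' a b := Subtype.ext (by simp)
  map_zero' := Subtype.ext (by simp)
  map_add' a b := Subtype.ext (by simp)

@[simp] theorem coe_constA (c : ↥A) : ((constA A e ι hι c : gaussSub A e) : F) = ι (c : K) := rfl

theorem gaussRes_constA (c : ↥A) :
    gaussRes A e (constA A e ι hι c) = HahnSeries.C (IsLocalRing.residue ↥A c) := by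
  rw [gaussRes_eq (f := constA A e ι hι c) (isIntRep_const A e ι hι c), coeffMap_C', map_one,
    div_one]

/-! ### Primitive scaling -/

/-- **Primitive scaling**: a nonzero two-variable polynomial over `K` is, up to a nonzero constant,
a polynomial over the valuation ring `A` with nonzero reduction. -/
theorem exists_primitive_scaling (P : K[X][X]) (hP : P ≠ 0) :
    ∃ (c : K) (P₀ : (↥A)[X][X]), c ≠ 0 ∧
      P₀.map (mapRingHom A.subtype) = Polynomial.C (Polynomial.C c) * P ∧
      P₀.map (mapRingHom (IsLocalRing.residue ↥A)) ≠ 0 := by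
  classical
  set T : Finset K := P.support.biUnion (fun j => (P.coeff j).coeffs) with hT
  have hmemT : ∀ j i, (P.coeff j).coeff i ≠ 0 → (P.coeff j).coeff i ∈ T := by
    intro j i h
    have hj : P.coeff j ≠ 0 := by
      intro h0
      rw [h0, Polynomial.coeff_zero] at h
      exact h rfl
    exact Finset.mem_biUnion.2 ⟨j, mem_support_iff.2 hj, coeff_mem_coeffs h⟩
  have hTne : T.Nonempty := by
    obtain ⟨j, hj⟩ := Polynomial.support_nonempty.2 hP
    have hj' : P.coeff j ≠ 0 := mem_support_iff.1 hj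
    obtain ⟨i, hi⟩ := Polynomial.support_nonempty.2 hj'
    exact ⟨_, hmemT j i (mem_support_iff.1 hi)⟩
  obtain ⟨c₀, hc₀T, hmax⟩ := T.exists_max_image A.valuation hTne
  obtain ⟨j₀, hj₀, hc₀⟩ := Finset.mem_biUnion.1 hc₀T
  obtain ⟨i₀, hi₀, rfl⟩ := mem_coeffs_iff.1 hc₀
  have hc₀0 : (P.coeff j₀).coeff i₀ ≠ 0 := mem_support_iff.1 hi₀
  set c₀ := (P.coeff j₀).coeff i₀ with hc₀def
  have hv0 : 0 < A.valuation c₀ := by
    rw [zero_lt_iff]
    exact (Valuation.ne_zero_iff _).2 hc₀0
  have hmem : ∀ j i, c₀⁻¹ * (P.coeff j).coeff i ∈ A := by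
    intro j i
    by_cases h : (P.coeff j).coeff i = 0
    · rw [h, mul_zero]
      exact A.zero_mem
    · rw [← A.valuation_le_one_iff, map_mul, map_inv₀, inv_mul_le_one₀ hv0]
      exact hmax _ (hmemT j i h)
  have hl : ∀ j, (Polynomial.C c₀⁻¹ * P.coeff j) ∈ lifts A.subtype := by
    intro j
    rw [lifts_iff_coeff_lifts]
    intro i
    rw [coeff_C_mul]
    exact ⟨⟨_, hmem j i⟩, rfl⟩
  have hL : (Polynomial.C (Polynomial.C c₀⁻¹) * P) ∈ lifts (mapRingHom A.subtype) := by
    rw [lifts_iff_coeff_lifts]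
    intro j
    rw [coeff_C_mul]
    obtain ⟨q, hq⟩ := (mem_lifts _).1 (hl j)
    exact ⟨q, hq⟩
  obtain ⟨P₀, hP₀⟩ := (mem_lifts _).1 hL
  refine ⟨c₀⁻¹, P₀, inv_ne_zero hc₀0, hP₀, ?_⟩
  intro h0
  have h1 : (((P₀.coeff j₀).coeff i₀ : ↥A) : K) = 1 := by
    have := congrArg (fun Q : K[X][X] => (Q.coeff j₀).coeff i₀) hP₀
    simp only [coeff_map, coe_mapRingHom, coeff_C_mul] at this
    rw [← hc₀def, inv_mul_cancel₀ hc₀0] at this
    exact this
  have h2 : (P₀.coeff j₀).coeff i₀ = 1 := Subtype.ext h1
  have h3 := congrArg (fun Q : (Kap A)[X][X] => (Q.coeff j₀).coeff i₀) h0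
  simp only [coeff_map, coe_mapRingHom, Polynomial.coeff_zero, h2, map_one] at h3
  exact one_ne_zero h3

/-! ### (RES-ALG) -/

/-- evaluation `A[X] → O`, `X ↦ x`. -/
def evA (x : gaussSub A e) : (↥A)[X] →+* gaussSub A e := eval₂RingHom (constA A e ι hι) x

theorem subtype_comp_evA (x : gaussSub A e) :
    (gaussSub A e).subtype.comp (evA A e ι hι x) =
      (eval₂RingHom ι (x : F)).comp (mapRingHom A.subtype) := by
  apply Polynomial.ringHom_ext
  · intro a
    simp [evA]
  · simp [evA]

theorem gaussRes_comp_evA (x : gaussSub A e) :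
    (gaussRes A e).comp (evA A e ι hι x) =
      ((aeval (gaussRes A e x) : (Kap A)[X] →ₐ[Kap A] LaurentSeries (Kap A)).toRingHom).comp
        (mapRingHom (IsLocalRing.residue ↥A)) := by
  apply Polynomial.ringHom_ext
  · intro a
    simp only [evA, RingHom.comp_apply, coe_eval₂RingHom, eval₂_C, gaussRes_constA,
      coe_mapRingHom, Polynomial.map_C, AlgHom.toRingHom_eq_coe, RingHom.coe_coe, aeval_C]
    rw [ModularCurve.algebraMap_laurentSeries_eq_single]
    rfl
  · simp [evA]

include hι in
/-- **(RES-ALG)** algebraic dependence passes to the residues: if `P(x, f) = 0` with `P ≠ 0` over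
`K`, `x f` in the Gauss ring and `x̄` transcendental over `κ`, then `f̄` is algebraic over `κ(x̄)`. -/
theorem isAlgebraic_gaussRes (x f : gaussSub A e)
    (hx : Transcendental (Kap A) (gaussRes A e x)) (P : K[X][X]) (hP : P ≠ 0)
    (hPf : P.eval₂ (eval₂RingHom ι (x : F)) (f : F) = 0) :
    IsAlgebraic (Kap A)⟮gaussRes A e x⟯ (gaussRes A e f) := by
  obtain ⟨c, P₀, hc, hP₀, hred⟩ := exists_primitive_scaling A P hP
  have h0 : P₀.eval₂ (evA A e ι hι x) f = 0 := by
    apply Subtype.ext
    have h1 : ((P₀.eval₂ (evA A e ι hι x) f : gaussSub A e) : F) =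
        (gaussSub A e).subtype (P₀.eval₂ (evA A e ι hι x) f) := rfl
    rw [h1, Polynomial.hom_eval₂, subtype_comp_evA, ← Polynomial.eval₂_map, hP₀,
      Polynomial.eval₂_mul, Polynomial.eval₂_C]
    show _ * P.eval₂ (eval₂RingHom ι (x : F)) (f : F) = _
    rw [hPf, mul_zero]
    rfl
  have h2 := congrArg (gaussRes A e) h0
  rw [Polynomial.hom_eval₂, gaussRes_comp_evA, ← Polynomial.eval₂_map, map_zero] at h2
  exact isAlgebraic_adjoin_simple_of_eval₂ hx _ hred h2

/-! ### The residue field as an intermediate field of `κ((q))` -/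

/-- the subalgebra `range gaussRes` of `κ((q))`. -/
def resAlg : Subalgebra (Kap A) (LaurentSeries (Kap A)) :=
  { (gaussRes A e).range with
    algebraMap_mem' := by
      intro c
      obtain ⟨a, rfl⟩ := IsLocalRing.residue_surjective c
      refine ⟨constA A e ι hι a, ?_⟩
      rw [gaussRes_constA, ModularCurve.algebraMap_laurentSeries_eq_single]
      rfl }

theorem mem_resAlg_iff {y : LaurentSeries (Kap A)} :
    y ∈ resAlg A e ι hι ↔ ∃ u : gaussSub A e, gaussRes A e u = y := Iff.rfl

/-- **The residue field `k`** of the Gauss ring of the expansion `e`, inside `κ((q))`. -/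
def resField : IntermediateField (Kap A) (LaurentSeries (Kap A)) :=
  Subalgebra.toIntermediateField (resAlg A e ι hι) (by
    rintro y ⟨u, rfl⟩
    by_cases hu : gaussRes A e u = 0
    · rw [hu, inv_zero]
      exact (resAlg A e ι hι).zero_mem
    · have hinv := inv_mem_gaussSub hu
      refine ⟨⟨_, hinv⟩, ?_⟩
      have hu0 : (u : F) ≠ 0 := by
        intro h0
        apply hu
        have : u = 0 := Subtype.ext h0
        rw [this, map_zero]
      have h1 : u * (⟨_, hinv⟩ : gaussSub A e) = 1 := Subtype.ext (mul_inv_cancel₀ hu0)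
      have h2 := congrArg (gaussRes A e) h1
      rw [map_mul, map_one] at h2
      exact eq_inv_of_mul_eq_one_right h2)

theorem mem_resField_iff {y : LaurentSeries (Kap A)} :
    y ∈ resField A e ι hι ↔ ∃ u : gaussSub A e, gaussRes A e u = y := Iff.rfl

theorem gaussRes_mem_resField (u : gaussSub A e) : gaussRes A e u ∈ resField A e ι hι :=
  ⟨u, rfl⟩

/-- **`k` is algebraic over `κ(x̄)`** if every Gauss element is algebraically dependent on `x`
over `K` (two-variable form). -/
theorem resField_isAlgebraic (x : gaussSub A e)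
    (hx : Transcendental (Kap A) (gaussRes A e x))
    (hF : ∀ f : gaussSub A e, ∃ P : K[X][X], P ≠ 0 ∧
      P.eval₂ (eval₂RingHom ι (x : F)) (f : F) = 0) :
    ∀ y ∈ resField A e ι hι, IsAlgebraic (Kap A)⟮gaussRes A e x⟯ y := by
  rintro y ⟨f, rfl⟩
  obtain ⟨P, hP, hPf⟩ := hF f
  exact isAlgebraic_gaussRes A e ι hι x f hx P hP hPf

/-! ### Transcendence from the order -/

omit A e ι hι in
/-- a Laurent series of nonzero order is transcendental over the constants. -/
theorem transcendental_of_order_ne_zero {κ : Type*} [Field κ] {y : LaurentSeries κ}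
    (hy : y.order ≠ 0) : Transcendental κ y := by
  have hy0 : y ≠ 0 := by
    rintro rfl
    exact hy HahnSeries.order_zero
  have hc : ∀ {z : LaurentSeries κ}, z ≠ 0 → z.coeff z.order ≠ 0 := fun hz h =>
    hz (HahnSeries.coeff_order_eq_zero.1 h)
  rcases lt_or_gt_of_ne hy with h | h
  · exact Fermat.Agent.RED.BASE.TBridge15.transcendental_of_coeff_ne_zero h (hc hy0)
  · have hinv0 : y⁻¹ ≠ 0 := inv_ne_zero hy0
    have hsum : y.order + y⁻¹.order = 0 := by
      rw [← HahnSeries.order_mul hy0 hinv0, mul_inv_cancel₀ hy0, HahnSeries.order_one]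
    have hinv : y⁻¹.order < 0 := by omega
    have h1 : Transcendental κ y⁻¹ :=
      Fermat.Agent.RED.BASE.TBridge15.transcendental_of_coeff_ne_zero hinv (hc hinv0)
    intro halg
    exact h1 halg.inv

/-! ### (KER-RES) -/

include hι in
/-- **(KER-RES)** Let `κ` be perfect of characteristic `p`, `x` a Gauss element whose residue has
order prime to `p`, and assume every Gauss element is algebraically dependent on `x` over `K`.
Then a Gauss element `u` whose residue is killed by `θ = q d/dq` has residue `v̄ ^ p` for a Gauss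
element `v`. -/
theorem exists_gaussRes_pow_eq (p : ℕ) [Fact p.Prime] [CharP (Kap A) p] [PerfectField (Kap A)]
    (x : gaussSub A e) (hxo : IsCoprime (gaussRes A e x).order (p : ℤ))
    (hF : ∀ f : gaussSub A e, ∃ P : K[X][X], P ≠ 0 ∧
      P.eval₂ (eval₂RingHom ι (x : F)) (f : F) = 0)
    (u : gaussSub A e) (hθ : theta (gaussRes A e u) = 0) :
    ∃ v : gaussSub A e, gaussRes A e u = gaussRes A e v ^ p := by
  have hord : (gaussRes A e x).order ≠ 0 := by
    intro h0
    rw [h0] at hxo
    have hp1 : IsUnit (p : ℤ) := isCoprime_zero_left.1 hxo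
    have := Int.isUnit_iff.1 hp1
    have hp2 := (Fact.out : p.Prime).two_le
    omega
  have hx0 : gaussRes A e x ≠ 0 := by
    intro h0
    rw [h0, HahnSeries.order_zero] at hord
    exact hord rfl
  have hxT := transcendental_of_order_ne_zero hord
  obtain ⟨g, ⟨v, rfl⟩, hg⟩ := exists_mem_pow_eq_of_theta_eq_zero p hx0 hxo (resField A e ι hι)
    (gaussRes_mem_resField A e ι hι x) (resField_isAlgebraic A e ι hι x hxT hF)
    (gaussRes_mem_resField A e ι hι u) hθ
  exact ⟨v, hg⟩

include hι in
/-- (KER-RES), `dlog` form: a Gauss UNIT `u` with `dlog ū = 0`. -/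
theorem exists_gaussRes_pow_eq_of_dlog (p : ℕ) [Fact p.Prime] [CharP (Kap A) p]
    [PerfectField (Kap A)]
    (x : gaussSub A e) (hxo : IsCoprime (gaussRes A e x).order (p : ℤ))
    (hF : ∀ f : gaussSub A e, ∃ P : K[X][X], P ≠ 0 ∧
      P.eval₂ (eval₂RingHom ι (x : F)) (f : F) = 0)
    (u : gaussSub A e) (hu : gaussRes A e u ≠ 0) (hd : dlog (gaussRes A e u) = 0) :
    ∃ v : gaussSub A e, gaussRes A e u = gaussRes A e v ^ p := by
  refine exists_gaussRes_pow_eq A e ι hι p x hxo hF u ?_
  rcases mul_eq_zero.1 hd with h | h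
  · exact h
  · exact absurd (inv_eq_zero.1 h) hu

/-! ### The algebra form of the hypothesis -/

section AlgebraForm

variable [Algebra K F]

omit A e ι hι in
/-- an element algebraic over `K(x)` satisfies a nonzero two-variable relation over `K`. -/
theorem exists_poly_of_isAlgebraic {x f : F}
    (h : IsAlgebraic (IntermediateField.adjoin K {x}) f) :
    ∃ P : K[X][X], P ≠ 0 ∧ P.eval₂ (eval₂RingHom (algebraMap K F) x) f = 0 := by
  obtain ⟨m, hm0, hm⟩ := h
  obtain ⟨d, q, hd, hq⟩ := Fermat.Agent.RED.PUR.G1Sep8.exists_clear x m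
  have hhom : (aeval x : K[X] →ₐ[K] F).toRingHom = eval₂RingHom (algebraMap K F) x := by
    apply Polynomial.ringHom_ext
    · intro a
      simp
    · simp
  have hmap : m.map (algebraMap (IntermediateField.adjoin K {x}) F) ≠ 0 :=
    (Polynomial.map_ne_zero_iff (algebraMap (IntermediateField.adjoin K {x}) F).injective).2 hm0
  refine ⟨q, ?_, ?_⟩
  · rintro rfl
    rw [Polynomial.map_zero] at hq
    exact mul_ne_zero (Polynomial.C_ne_zero.2 hd) hmap hq.symm
  · rw [← hhom, ← Polynomial.eval_map, hq, Polynomial.eval_mul, Polynomial.eval_C,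
      Polynomial.eval_map, ← Polynomial.aeval_def, hm, mul_zero]

/-- **(KER-RES), algebra form**: `F` a `K`-algebra with `e` the identity on constants, every
element of `F` algebraic over `K(x)` (`F` a function field of one variable, `x` nonconstant). -/
theorem exists_gaussRes_pow_eq' (he : ∀ c : K, e (algebraMap K F c) = HahnSeries.C c)
    (p : ℕ) [Fact p.Prime] [CharP (Kap A) p] [PerfectField (Kap A)]
    (x : gaussSub A e) (hxo : IsCoprime (gaussRes A e x).order (p : ℤ))
    (hF : ∀ f : F, IsAlgebraic (IntermediateField.adjoin K {(x : F)}) f)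
    (u : gaussSub A e) (hθ : theta (gaussRes A e u) = 0) :
    ∃ v : gaussSub A e, gaussRes A e u = gaussRes A e v ^ p :=
  exists_gaussRes_pow_eq A e (algebraMap K F) he p x hxo
    (fun f => exists_poly_of_isAlgebraic (hF (f : F))) u hθ

/-- the same for a Gauss unit with `dlog ū = 0`. -/
theorem exists_gaussRes_pow_eq_of_dlog' (he : ∀ c : K, e (algebraMap K F c) = HahnSeries.C c)
    (p : ℕ) [Fact p.Prime] [CharP (Kap A) p] [PerfectField (Kap A)]
    (x : gaussSub A e) (hxo : IsCoprime (gaussRes A e x).order (p : ℤ))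
    (hF : ∀ f : F, IsAlgebraic (IntermediateField.adjoin K {(x : F)}) f)
    (u : gaussSub A e) (hu : gaussRes A e u ≠ 0) (hd : dlog (gaussRes A e u) = 0) :
    ∃ v : gaussSub A e, gaussRes A e u = gaussRes A e v ^ p :=
  exists_gaussRes_pow_eq_of_dlog A e (algebraMap K F) he p x hxo
    (fun f => exists_poly_of_isAlgebraic (hF (f : F))) u hu hd

end AlgebraForm

end Fermat.Agent.T1B.Hecke16
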