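/-
Programme T1B (S44), brick 528 (F8 HECKE-N), slice S6 KER (helper16): CONCRETE INSTANCES of
`Hecke16/ResField.exists_gaussRes_pow_eq_of_dlog'` for the modular function fields
`FF N = modularFunctionFieldBar N` over `Kbar = ℚbar`.

`ker_of_expansion`: for ANY expansion `e : FF N →+* ℚbar((q))` which is the identity on constants
and maps some function `x` to the formal `j` (`e x = jqK`), any valuation subring `A` of `ℚbar`
over a prime `p`, and any unit `u` of the Gauss ring of `e` with `dlog ū = 0`: `ū = v̄ ^ p` for a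
Gauss element `v`.

* side 1 (`ker_side1`): `e` = the coercion (`q`-expansion at `∞`), `x = jF N`;
* side 2 (`ker_side2`): `e = W` any Atkin–Lehner embedding of `ES/KRON/Conjugates11.exists_W`
  (`W ∘ β_p = id`) at level `M' * p`, `x = β_p (jF M')`.
-/
import Mathlib
import Fermat.Agent.T1B.Hecke16.ResField
import Fermat.Agent.X0.HasCanDivInst
import Fermat.Agent.X0.FFExchange
import Fermat.Agent.IG.AN.ModPoly3
import Fermat.Agent.DS.G.HECKE.DegAlong
import Fermat.Agent.ES.KRON.KronInst10
import Fermat.Prelude.Def_ModularCurve_HeckeOperator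

set_option autoImplicit false

noncomputable section

open HahnSeries Polynomial IntermediateField ModularCurve

namespace Fermat.Agent.T1B.Hecke16

open Fermat.Agent.X0 Fermat.Agent.X0.FF
open Fermat.Agent.T1B.Hecke3 Fermat.Agent.IG.PR.Theta20

/-- `jqK = jqModC ℚbar`. -/
theorem jqK_eq : jqK = jqModC Kbar := Fermat.Agent.DS.G.HECKE.DegAlong.coeffEmb_jq Kbar

variable {N : ℕ} [NeZero N] (A : ValuationSubring Kbar)
variable (e : FF N →+* LaurentSeries Kbar)

/-- the formal `j` has an integral representation. -/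
theorem isIntRep_of_eq_jqK {x : FF N} (hx : e x = jqK) :
    IsIntRep A e x (jqModC ↥A) 1 := by
  refine ⟨by rw [map_one]; exact one_ne_zero, ?_⟩
  rw [map_one, mul_one, hx, jqK_eq]
  exact (coeffMap_jqModC A.subtype).symm

/-- `x` with `e x = j` as an element of the Gauss ring. -/
def jGauss {x : FF N} (hx : e x = jqK) : gaussSub A e := ⟨x, ⟨_, _, isIntRep_of_eq_jqK A e hx⟩⟩

theorem gaussRes_jGauss {x : FF N} (hx : e x = jqK) :
    gaussRes A e (jGauss A e hx) = jqModC (Kap A) := by
  rw [gaussRes_eq (f := jGauss A e hx) (isIntRep_of_eq_jqK A e hx), map_one, div_one]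
  exact coeffMap_jqModC (IsLocalRing.residue ↥A)

/-- **(KER), generic expansion**. -/
theorem ker_of_expansion (he : ∀ c : Kbar, e (algebraMap Kbar (FF N) c) = HahnSeries.C c)
    (p : ℕ) [hp : Fact p.Prime] (hA : A.LiesOverPrime p) {x : FF N} (hx : e x = jqK)
    (u : gaussSub A e) (hu : gaussRes A e u ≠ 0) (hd : dlog (gaussRes A e u) = 0) :
    ∃ v : gaussSub A e, gaussRes A e u = gaussRes A e v ^ p := by
  haveI : IsAlgClosed (Kap A) := Fermat.Agent.ES.KRON.KronInst10.isAlgClosed_residueField A
  haveI : CharP (Kap A) p := Fermat.Agent.ES.KRON.KronInst10.charP_residueField A hp.out hA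
  -- `x` is transcendental
  have hxT : Transcendental Kbar x := by
    intro halg
    have h1 : IsAlgebraic Kbar (e x) := by
      obtain ⟨P, hP0, hP⟩ := halg
      refine ⟨P, hP0, ?_⟩
      have hcomp : e.comp (algebraMap Kbar (FF N)) = algebraMap Kbar (LaurentSeries Kbar) := by
        apply RingHom.ext
        intro c
        rw [RingHom.comp_apply, he, ModularCurve.algebraMap_laurentSeries_eq_single]
        rfl
      have h2 := congrArg e hP
      rw [map_zero, aeval_def, Polynomial.hom_eval₂, hcomp] at h2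
      rw [aeval_def]
      exact h2
    rw [hx] at h1
    exact transcendental_jqK h1
  -- `FF N` is algebraic over `ℚbar(x)`
  have hgen : IsGen Kbar (jF N) := Fermat.Agent.X0.HasCanDivInst.isGen N
  haveI := hgen.finiteDimensional
  have halg0 : Algebra.IsAlgebraic Kbar⟮jF N⟯ (FF N) := Algebra.IsAlgebraic.of_finite _ _
  have halg : Algebra.IsAlgebraic Kbar⟮x⟯ (FF N) :=
    ffx_isAlgebraic_of_transcendental (jF N) x halg0 hxT
  have hxo : IsCoprime (gaussRes A e (jGauss A e hx)).order (p : ℤ) := by
    rw [gaussRes_jGauss, Fermat.Agent.IG.AN.ModPoly3.order_jqModC]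
    exact (isCoprime_one_left (x := (p : ℤ))).neg_left
  exact exists_gaussRes_pow_eq_of_dlog' A e he p (jGauss A e hx) hxo
    (fun f => halg.isAlgebraic f) u hu hd

/-- **(KER), side 1**: the `q`-expansion at `∞`. -/
theorem ker_side1 (he1 : ∀ f : FF N, e f = (f : LaurentSeries Kbar))
    (p : ℕ) [hp : Fact p.Prime] (hA : A.LiesOverPrime p)
    (u : gaussSub A e) (hu : gaussRes A e u ≠ 0) (hd : dlog (gaussRes A e u) = 0) :
    ∃ v : gaussSub A e, gaussRes A e u = gaussRes A e v ^ p := by
  refine ker_of_expansion A e ?_ p hA (x := jF N) ?_ u hu hd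
  · intro c
    rw [he1]
    show algebraMap Kbar (LaurentSeries Kbar) c = _
    rw [ModularCurve.algebraMap_laurentSeries_eq_single]
    rfl
  · rw [he1, coe_jF]

/-- **(KER), side 2**: an Atkin–Lehner expansion `W` with `W ∘ β = id`
(`ES/KRON/Conjugates11.exists_W` at `(M', p')`), level `M' * p'`. -/
theorem ker_side2 {M' p' : ℕ} [NeZero M'] [NeZero p'] (W : FF (M' * p') →+* LaurentSeries Kbar)
    (hWβ : ∀ h : FF M', W (heckeBetaBar Kbar M' p' h) = (h : LaurentSeries Kbar))
    (p : ℕ) [hp : Fact p.Prime] (hA : A.LiesOverPrime p)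
    (u : gaussSub A W) (hu : gaussRes A W u ≠ 0) (hd : dlog (gaussRes A W u) = 0) :
    ∃ v : gaussSub A W, gaussRes A W u = gaussRes A W v ^ p := by
  refine ker_of_expansion A W ?_ p hA (x := heckeBetaBar Kbar M' p' (jF M')) ?_ u hu hd
  · intro c
    rw [← (heckeBetaBar Kbar M' p').commutes c, hWβ]
    show algebraMap Kbar (LaurentSeries Kbar) c = _
    rw [ModularCurve.algebraMap_laurentSeries_eq_single]
    rfl
  · rw [hWβ, coe_jF]

end Fermat.Agent.T1B.Hecke16
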