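/-
Programme T1B (S44), brick 528 (F8 HECKE-N), slice RESFIELD-ID (helper16), item (RF1), side 1.

`N = M' * p`, `p ∤ M'`, `A` a valuation subring of `ℚbar` over `p`, `κ̄ = Kap A`.  For the
`q`-expansion at `∞` (`e f = ↑f`): THE RESIDUE OF EVERY GAUSS ELEMENT OF `FF N` LIES IN THE FUNCTION
FIELD OF `X₀(M')` OVER `κ̄`:

  `gaussRes A e u ∈ modularFunctionFieldFullC κ̄ M'`   (`gaussRes_mem_fullC_four / _nine`),
  `resField A e ι hι ≤ modularFunctionFieldFullC κ̄ M'` (`resField_le_fullC_four / _nine`).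

Proof = transport from the finite levels, where everything is in the library:
* `u` descends to `x ∈ FK N K` for a large normal number field `K` (`RED/DESC/CoeffDescent1`);
* `x` lies in the Gauss ring of the DVR `A ∩ K` (helper95's `GaussW95.coeffMap_mem_gaussRing_iff`);
* `x ≡ α z mod π`, `z` in the Gauss ring of the GOOD level `M'` (`ES/N34/CombA26.hcomb_four/_nine`:
  the two-valuation degree count `f₁ + f₂ ≤ (p+1) ψ(M')`);
* the residue of `z` lies in `κ_K(j̃(q^d) : d ∣ M')` (`ES/RED/ResField26.gaussRed_mem_fullC`, Igusa);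
* residues are compatible with `K ⊂ ℚbar` (`GaussW95.gaussRed_coeffMap`, `ResidueUnion1`).
-/
import Mathlib
import Fermat.Agent.T1B.Hecke16.ResField
import Fermat.Agent.T1B.GaussW95.Descent
import Fermat.Agent.ES.N34.CombA26
import Fermat.Agent.ES.RED.ResField26
import Fermat.Agent.ES.RED.ResidueUnion1
import Fermat.Agent.RED.DESC.CoeffDescent1

set_option autoImplicit false
set_option linter.unusedSectionVars false

noncomputable section

open HahnSeries ModularCurve IntermediateField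

namespace Fermat.Agent.T1B.Hecke16

open Fermat.Agent.RED.Interface4 Fermat.Agent.RED.PUR.GaussGen8
open Fermat.Agent.T1B.Hecke3 Fermat.Agent.T1B.GaussW95
open Fermat.Agent.ES.N34.ModelN4 Fermat.Agent.ES.N34.CombA26 Fermat.Agent.ES.N34.ModelDefs9
open Fermat.Agent.RED.DESC Fermat.Agent.RED.DESC.CoeffDescent1
open Fermat.Agent.RED.BASE

variable {M' p : ℕ} [NeZero M'] [NeZero p] (A : ValuationSubring Qbar)

/-! ### `Hecke3.gaussSub` versus `GaussGen8.gaussRing` -/

section Bridge

variable {F : Type*} [Field F] (e : F →+* LaurentSeries Qbar)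

theorem mem_gaussSub_iff_mem_gaussRing (f : F) : f ∈ gaussSub A e ↔ e f ∈ gaussRing A := Iff.rfl

theorem gaussRes_eq_gaussRed (u : gaussSub A e) :
    gaussRes A e u = gaussRed A ⟨e (u : F), (mem_gaussSub_iff_mem_gaussRing A e _).1 u.2⟩ := by
  obtain ⟨a, s, h⟩ := u.2
  rw [gaussRes_eq h]
  exact (gaussRed_eq A (f := ⟨e (u : F), (mem_gaussSub_iff_mem_gaussRing A e _).1 u.2⟩) h).symm

end Bridge

/-! ### (RF1) from the finite-level `hcomb` -/

/-- **(RF1), side 1**, from `hcomb` at `(O1, alpha)` for all large number fields. -/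
theorem gaussRes_mem_fullC_of_large (hp : p.Prime) (hpM : ¬ p ∣ M') (hA : A.LiesOverPrime p)
    {n e₀ : ℕ} [NeZero n] (hmem : Interface12.TMem n e₀ M')
    (hL : Large (HcombAt n e₀ p M' A))
    (e : ↥(modularFunctionFieldBar (M' * p)) →+* LaurentSeries Qbar)
    (he1 : ∀ f, e f = (f : LaurentSeries Qbar)) (u : gaussSub A e) :
    gaussRes A e u ∈ modularFunctionFieldFullC (Kap A) M' := by
  have hacl : IsAlgClosure ℚ Qbar := by
    have h : (DivisionRing.toRatAlgebra : Algebra ℚ Qbar) = AlgebraicClosure.instAlgebra ℚ :=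
      Subsingleton.elim _ _
    rw [h]
    infer_instance
  have : Normal ℚ Qbar := IsAlgClosure.normal ℚ Qbar
  have : Algebra.IsAlgebraic ℚ Qbar := AlgebraicClosure.isAlgebraic ℚ
  have hu : ((u : ↥(modularFunctionFieldBar (M' * p))) : LaurentSeries Qbar) ∈ gaussRing A := by
    have := (mem_gaussSub_iff_mem_gaussRing A e _).1 u.2
    rwa [he1] at this
  obtain ⟨K₀, hK₀fin, hK₀⟩ := hL
  obtain ⟨K₁, hK₁fin, hK₁⟩ := TBridge15.exists_tq_mem n e₀ M' hmem
  -- descend `u` to a number field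
  have huF : ((u : ↥(modularFunctionFieldBar (M' * p))) : LaurentSeries Qbar) ∈
      laurentBaseChange Qbar (modularFunctionFieldFull (M' * p)) :=
    (u : ↥(modularFunctionFieldBar (M' * p))).2
  obtain ⟨K₂, hK₂, hK₂fin, x', hx', hxu'⟩ :=
    exists_finite_descent (F₀ := modularFunctionFieldFull (M' * p)) (K₀ ⊔ K₁) huF
  -- pass to the normal closure
  set K : IntermediateField ℚ Qbar := IntermediateField.normalClosure ℚ K₂ Qbar with hKdef
  have hK₂K : K₂ ≤ K := IntermediateField.le_normalClosure K₂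
  have hfinK : FiniteDimensional ℚ K := normalClosure.is_finiteDimensional ℚ K₂ Qbar
  have hnorK : Normal ℚ K := normalClosure.normal ℚ K₂ Qbar
  obtain ⟨x, hx, hxx'⟩ := exists_lift_of_le hK₂K hx'
  have hxu : coeffMap (algebraMap K Qbar) x =
      ((u : ↥(modularFunctionFieldBar (M' * p))) : LaurentSeries Qbar) := hxx'.trans hxu'
  -- the DVR `A ∩ K`
  have hdvr : IsDiscreteValuationRing ↥(AK A K) :=
    NumberFieldDVR27.isDiscreteValuationRing_AK A K hp.ne_zero hA
  obtain ⟨π, hπirr⟩ := IsDiscreteValuationRing.exists_irreducible ↥(AK A K)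
  have hπ : IsUnif (AK A K) π := isUnif_of_irreducible (AK A K) hπirr
  have : Fact p.Prime := ⟨hp⟩
  have : CharP (Res (AK A K)) p := NumberFieldDVR27.charP_residueField_AK A K hp hA
  have hE : FK (M' * p) K ≤ fracField (AK A K) :=
    Fermat.Agent.RED.PUR.GaussBridge10.FK_le_fracField A K (M' * p)
  have hK₀K : K₀ ≤ K := (le_sup_left.trans hK₂).trans hK₂K
  have hK₁K : K₁ ≤ K := (le_sup_right.trans hK₂).trans hK₂K
  have ht := hK₁ K hK₁K
  have hcomb := hK₀ K hfinK hK₀K ht hE π hπ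
  -- `x` is in the Gauss ring of `A ∩ K`
  have hxG : x ∈ gaussRing (AK A K) :=
    (coeffMap_mem_gaussRing_iff (φ := algebraMap K Qbar) (A := A) hπ (hE hx)).1
      (by rw [hxu]; exact hu)
  obtain ⟨z, hz, c, hc, hxz⟩ := hcomb ⟨x, hx⟩ hxG
  have hcG : ((c : ↥(FK (M' * p) K)) : LaurentSeries K) ∈ gaussRing (AK A K) := hc
  -- the congruence in `K((q))`
  have hser : x = (z : LaurentSeries K) +
      HahnSeries.C ((π : ↥(AK A K)) : ↥K) * ((c : ↥(FK (M' * p) K)) : LaurentSeries K) := by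
    have h1 := congrArg (fun y : ↥(FK (M' * p) K) => (y : LaurentSeries K)) hxz
    simp only [AddSubgroupClass.coe_sub, MulMemClass.coe_mul, coe_alpha,
      Fermat.Agent.RED.NumInst4.coe_algebraMap_OE] at h1
    rw [← h1]
    ring
  -- residues at level `K`
  have hredx : gaussRed (AK A K) ⟨x, hxG⟩ = gaussRed (AK A K) ⟨(z : LaurentSeries K), hz⟩ := by
    have h2 : (⟨x, hxG⟩ : gaussRing (AK A K)) =
        ⟨(z : LaurentSeries K), hz⟩ + constG (AK A K) π *
          ⟨((c : ↥(FK (M' * p) K)) : LaurentSeries K), hcG⟩ := Subtype.ext hser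
    rw [h2, map_add, map_mul, gaussRed_unif hπ, zero_mul, add_zero]
  -- the good level
  have hzF : (z : LaurentSeries K) ∈ modularFunctionFieldFullC (↥K) M' := by
    rw [← Fermat.Agent.RED.PUR.DegBaseChange25.laurentBaseChange_full_eq (L := ↥K) M']
    exact z.2
  have hzres := Fermat.Agent.ES.RED.ResField26.gaussRed_mem_fullC (AK A K) hπirr p M' hpM
    ⟨(z : LaurentSeries K), hz⟩ hzF
  -- transport to `ℚbar`
  have hxA : coeffMap (algebraMap K Qbar) x ∈ gaussRing A := by rw [hxu]; exact hu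
  obtain ⟨ρ, hρ⟩ : ∃ ρ : Res (AK A K) →+* Kap A,
      gaussRed A ⟨coeffMap (algebraMap K Qbar) x, hxA⟩ =
        coeffMap ρ (gaussRed (AK A K) ⟨x, hxG⟩) :=
    ⟨resO (algebraMap K Qbar) A, gaussRed_coeffMap (φ := algebraMap K Qbar) (A := A) ⟨x, hxG⟩⟩
  have hfinal : gaussRes A e u = coeffMap ρ (gaussRed (AK A K) ⟨(z : LaurentSeries K), hz⟩) := by
    rw [gaussRes_eq_gaussRed, ← hredx, ← hρ]
    congr 1
    apply Subtype.ext
    show e (u : ↥(modularFunctionFieldBar (M' * p))) = coeffMap (algebraMap K Qbar) x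
    rw [he1, hxu]
  rw [hfinal]
  exact Fermat.Agent.ES.RED.ResidueUnion1.coeffMap_mem_fullC ρ M' hzres

/-! ### The unconditional forms: `4 ∣ M'` (all odd `p`) or `9 ∣ M'` (all `p ≠ 3`, e.g. `p = 2`) -/

/-- **(RF1), side 1, `4 ∣ M'`** (`p` is then odd). -/
theorem gaussRes_mem_fullC_four (hp : p.Prime) (hpM : ¬ p ∣ M') (hM : 4 ∣ M')
    (hA : A.LiesOverPrime p)
    (e : ↥(modularFunctionFieldBar (M' * p)) →+* LaurentSeries Qbar)
    (he1 : ∀ f, e f = (f : LaurentSeries Qbar)) (u : gaussSub A e) :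
    gaussRes A e u ∈ modularFunctionFieldFullC (Kap A) M' :=
  gaussRes_mem_fullC_of_large A hp hpM hA (MainCusp12.base_four M' hM).1.mem
    (hcomb_four hp hpM hM hA) e he1 u

/-- **(RF1), side 1, `9 ∣ M'`** (`p ≠ 3`; this covers `p = 2`). -/
theorem gaussRes_mem_fullC_nine (hp : p.Prime) (hpM : ¬ p ∣ M') (hM : 9 ∣ M')
    (hA : A.LiesOverPrime p)
    (e : ↥(modularFunctionFieldBar (M' * p)) →+* LaurentSeries Qbar)
    (he1 : ∀ f, e f = (f : LaurentSeries Qbar)) (u : gaussSub A e) :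
    gaussRes A e u ∈ modularFunctionFieldFullC (Kap A) M' :=
  gaussRes_mem_fullC_of_large A hp hpM hA (MainCusp12.base_nine M' hM).1.mem
    (hcomb_nine hp hpM hM hA) e he1 u

/-- **(RF1)** in the form of an inclusion of intermediate fields: the residue field of the Gauss
valuation of `FF (M' p)` (at `∞`) is contained in the function field of `X₀(M')` over `κ̄`. -/
theorem resField_le_fullC_of_mem
    (e : ↥(modularFunctionFieldBar (M' * p)) →+* LaurentSeries Qbar)
    (ι : Qbar →+* ↥(modularFunctionFieldBar (M' * p)))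
    (hι : ∀ c, e (ι c) = HahnSeries.C c)
    (h : ∀ u : gaussSub A e, gaussRes A e u ∈ modularFunctionFieldFullC (Kap A) M') :
    resField A e ι hι ≤ modularFunctionFieldFullC (Kap A) M' := by
  intro y hy
  obtain ⟨u, rfl⟩ := (mem_resField_iff A e ι hι).1 hy
  exact h u

theorem resField_le_fullC_four (hp : p.Prime) (hpM : ¬ p ∣ M') (hM : 4 ∣ M')
    (hA : A.LiesOverPrime p)
    (e : ↥(modularFunctionFieldBar (M' * p)) →+* LaurentSeries Qbar)
    (he1 : ∀ f, e f = (f : LaurentSeries Qbar))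
    (ι : Qbar →+* ↥(modularFunctionFieldBar (M' * p)))
    (hι : ∀ c, e (ι c) = HahnSeries.C c) :
    resField A e ι hι ≤ modularFunctionFieldFullC (Kap A) M' :=
  resField_le_fullC_of_mem A e ι hι (gaussRes_mem_fullC_four A hp hpM hM hA e he1)

theorem resField_le_fullC_nine (hp : p.Prime) (hpM : ¬ p ∣ M') (hM : 9 ∣ M')
    (hA : A.LiesOverPrime p)
    (e : ↥(modularFunctionFieldBar (M' * p)) →+* LaurentSeries Qbar)
    (he1 : ∀ f, e f = (f : LaurentSeries Qbar))
    (ι : Qbar →+* ↥(modularFunctionFieldBar (M' * p)))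
    (hι : ∀ c, e (ι c) = HahnSeries.C c) :
    resField A e ι hι ≤ modularFunctionFieldFullC (Kap A) M' :=
  resField_le_fullC_of_mem A e ι hι (gaussRes_mem_fullC_nine A hp hpM hM hA e he1)

end Fermat.Agent.T1B.Hecke16
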