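/-
Programme T1B (S44), brick 528 (F8 HECKE-N), slice RESFIELD-ID (helper16), item (RF2).

THE RESIDUE FIELD OF THE GAUSS VALUATION OF `FF (M' p)` IS THE FUNCTION FIELD OF `X₀(M')` OVER `κ̄`.

* `gaussRes_qjGauss` : an element `x` with expansion `e x = j(q^d)` is a Gauss element with residue
  `j̃(q^d)`.
* `fullC_le_resField` (generic) : if every `j(q^d)`, `d ∣ D`, is the expansion of an element of `F`,
  then `κ̄(j̃(q^d) : d ∣ D) ≤ resField`.
* side 1 (`e f = ↑f`, level `L`, `D ∣ L`): `fullC_le_resField_side1`;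
  side 2 (`W ∘ β = id`, level `M' * p'`, `D ∣ M'`): `fullC_le_resField_side2`.
* (RF2) `resField_eq_fullC_four / _nine` : `resField A e ι hι = modularFunctionFieldFullC κ̄ M'`
  for the `q`-expansion at `∞` of `FF (M' * p)`.
* `exists_gaussRes_eq_of_mem_fullC` : the lifting form (every `y ∈ κ̄·F̃_D` is a residue).
-/
import Mathlib
import Fermat.Agent.T1B.Hecke16.ResFieldX0
import Fermat.Agent.T1B.Hecke16.KerInst

set_option autoImplicit false
set_option linter.unusedSectionVars false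

noncomputable section

open HahnSeries ModularCurve IntermediateField

namespace Fermat.Agent.T1B.Hecke16

open Fermat.Agent.X0 Fermat.Agent.X0.FF
open Fermat.Agent.T1B.Hecke3

section Generic

variable {F : Type*} [Field F] (A : ValuationSubring Kbar) (e : F →+* LaurentSeries Kbar)

/-- `j(q^d)` has an integral representation. -/
theorem isIntRep_of_eq_qExpand {d : ℕ} [NeZero d] {x : F}
    (hx : e x = qExpand Kbar d (jqModC Kbar)) :
    IsIntRep A e x (qExpand ↥A d (jqModC ↥A)) 1 := by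
  refine ⟨by rw [map_one]; exact one_ne_zero, ?_⟩
  rw [map_one, mul_one, hx]
  show _ = coeffMap A.subtype (qExpand ↥A d (jqModC ↥A))
  rw [Fermat.Agent.ES.RED.ResidueUnion1.coeffMap_qExpand', coeffMap_jqModC]

/-- `x` with `e x = j(q^d)` as an element of the Gauss ring. -/
def qjGauss {d : ℕ} [NeZero d] {x : F} (hx : e x = qExpand Kbar d (jqModC Kbar)) : gaussSub A e :=
  ⟨x, ⟨_, _, isIntRep_of_eq_qExpand A e hx⟩⟩

theorem gaussRes_qjGauss {d : ℕ} [NeZero d] {x : F}
    (hx : e x = qExpand Kbar d (jqModC Kbar)) :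
    gaussRes A e (qjGauss A e hx) = qExpand (Kap A) d (jqModC (Kap A)) := by
  rw [gaussRes_eq (f := qjGauss A e hx) (isIntRep_of_eq_qExpand A e hx), map_one, div_one]
  show coeffMap (IsLocalRing.residue ↥A) (qExpand ↥A d (jqModC ↥A)) = _
  rw [Fermat.Agent.ES.RED.ResidueUnion1.coeffMap_qExpand', coeffMap_jqModC]

variable (ι : Kbar →+* F) (hι : ∀ c, e (ι c) = HahnSeries.C c)

/-- **(RF2 ⊇), generic**: if every `j(q^d)`, `d ∣ D`, is an expansion, then
`κ̄(j̃(q^d) : d ∣ D) ≤ resField`. -/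
theorem fullC_le_resField (D : ℕ)
    (h : ∀ (d : ℕ) [NeZero d], d ∣ D → ∃ x : F, e x = qExpand Kbar d (jqModC Kbar)) :
    modularFunctionFieldFullC (Kap A) D ≤ resField A e ι hι := by
  unfold modularFunctionFieldFullC
  rw [IntermediateField.adjoin_le_iff]
  rintro _ ⟨d, hd, hdD, rfl⟩
  obtain ⟨x, hx⟩ := h d hdD
  exact ⟨qjGauss A e hx, gaussRes_qjGauss A e hx⟩

end Generic

/-! ### The two sides -/

section Sides

variable (A : ValuationSubring Kbar)

/-- `j(q^d) ∈ FF L` for `d ∣ L`. -/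
theorem qExpand_jqModC_mem_bar {L d : ℕ} [NeZero d] (hd : d ∣ L) :
    qExpand Kbar d (jqModC Kbar) ∈ modularFunctionFieldBar L := by
  show _ ∈ laurentBaseChange Kbar (modularFunctionFieldFull L)
  rw [Fermat.Agent.RED.PUR.DegBaseChange25.laurentBaseChange_full_eq (L := Kbar) L]
  exact jqModCd_mem_full Kbar L hd

/-- **(RF2 ⊇), side 1** (`q`-expansion at `∞`), level `L`, `D ∣ L`. -/
theorem fullC_le_resField_side1 {L D : ℕ} (hD : D ∣ L)
    (e : ↥(modularFunctionFieldBar L) →+* LaurentSeries Kbar)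
    (he1 : ∀ f, e f = (f : LaurentSeries Kbar))
    (ι : Kbar →+* ↥(modularFunctionFieldBar L)) (hι : ∀ c, e (ι c) = HahnSeries.C c) :
    modularFunctionFieldFullC (Kap A) D ≤ resField A e ι hι :=
  fullC_le_resField A e ι hι D fun d _ hd =>
    ⟨⟨_, qExpand_jqModC_mem_bar (hd.trans hD)⟩, he1 _⟩

/-- **(RF2 ⊇), side 2** (an Atkin–Lehner expansion `W` with `W ∘ β = id`), level `M' * p'`,
`D ∣ M'`. -/
theorem fullC_le_resField_side2 {M' p' D : ℕ} [NeZero M'] [NeZero p'] (hD : D ∣ M')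
    (W : FF (M' * p') →+* LaurentSeries Kbar)
    (hWβ : ∀ h : FF M', W (heckeBetaBar Kbar M' p' h) = (h : LaurentSeries Kbar))
    (ι : Kbar →+* FF (M' * p')) (hι : ∀ c, W (ι c) = HahnSeries.C c) :
    modularFunctionFieldFullC (Kap A) D ≤ resField A W ι hι :=
  fullC_le_resField A W ι hι D fun d _ hd =>
    ⟨heckeBetaBar Kbar M' p' ⟨_, qExpand_jqModC_mem_bar (hd.trans hD)⟩, hWβ _⟩

/-- the lifting form of (RF2 ⊇), side 1. -/
theorem exists_gaussRes_eq_of_mem_fullC {L D : ℕ} (hD : D ∣ L)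
    (e : ↥(modularFunctionFieldBar L) →+* LaurentSeries Kbar)
    (he1 : ∀ f, e f = (f : LaurentSeries Kbar))
    (ι : Kbar →+* ↥(modularFunctionFieldBar L)) (hι : ∀ c, e (ι c) = HahnSeries.C c)
    {y : LaurentSeries (Kap A)} (hy : y ∈ modularFunctionFieldFullC (Kap A) D) :
    ∃ u : gaussSub A e, gaussRes A e u = y :=
  (mem_resField_iff A e ι hι).1 (fullC_le_resField_side1 A hD e he1 ι hι hy)

variable {M' p : ℕ} [NeZero M'] [NeZero p]

/-- **(RF2), `4 ∣ M'`**: the residue field of the Gauss valuation (at `∞`) of `FF (M' p)` is the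
function field of `X₀(M')` over `κ̄`. -/
theorem resField_eq_fullC_four (hp : p.Prime) (hpM : ¬ p ∣ M') (hM : 4 ∣ M')
    (hA : A.LiesOverPrime p)
    (e : ↥(modularFunctionFieldBar (M' * p)) →+* LaurentSeries Kbar)
    (he1 : ∀ f, e f = (f : LaurentSeries Kbar))
    (ι : Kbar →+* ↥(modularFunctionFieldBar (M' * p)))
    (hι : ∀ c, e (ι c) = HahnSeries.C c) :
    resField A e ι hι = modularFunctionFieldFullC (Kap A) M' :=
  le_antisymm (resField_le_fullC_four A hp hpM hM hA e he1 ι hι)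
    (fullC_le_resField_side1 A (Dvd.intro _ rfl) e he1 ι hι)

/-- **(RF2), `9 ∣ M'`** (covers `p = 2`). -/
theorem resField_eq_fullC_nine (hp : p.Prime) (hpM : ¬ p ∣ M') (hM : 9 ∣ M')
    (hA : A.LiesOverPrime p)
    (e : ↥(modularFunctionFieldBar (M' * p)) →+* LaurentSeries Kbar)
    (he1 : ∀ f, e f = (f : LaurentSeries Kbar))
    (ι : Kbar →+* ↥(modularFunctionFieldBar (M' * p)))
    (hι : ∀ c, e (ι c) = HahnSeries.C c) :
    resField A e ι hι = modularFunctionFieldFullC (Kap A) M' :=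
  le_antisymm (resField_le_fullC_nine A hp hpM hM hA e he1 ι hι)
    (fullC_le_resField_side1 A (Dvd.intro _ rfl) e he1 ι hι)

end Sides

end Fermat.Agent.T1B.Hecke16
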