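/-
Programme T1B (S44), brick 528 (F8 HECKE-N), slice RESFIELD-ID (helper16), item (RF1'), SIDE 2.

`N = M' * p`, `p ∤ M'`, `A` a valuation subring of `ℚbar` over `p`, `κ̄ = Kap A`.  For ANY
Atkin–Lehner type expansion `W : FF N →+* ℚbar((q))` (`W ∘ α = V_p`, `W ∘ β = id`, `W c = c`; e.g.
`W = ALP90.AL1.Wp M' p`): THE RESIDUE OF EVERY GAUSS ELEMENT LIES IN THE FUNCTION FIELD OF `X₀(M')`:

  `gaussRes A W u ∈ modularFunctionFieldFullC κ̄ M'`,  `resField A W ι hι = modularFunctionFieldFullC κ̄ M'`.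

Proof = transport from the finite levels:
* `u = x ⊗ ℚbar`, `x ∈ FK N K`, `K` a large normal number field;
* `x ∈ O2` (helper77's (W3) `GaussW77.comap_gaussVal_W_eq_O2`);
* `x ≡ β z mod π O2`, `z` in the Gauss ring of the good level `M'` (`CombA26.hcomb_large` + the
  `W`-transport `CombW5.hcomb_O2_of_O1` with the isometry `IsoM25.isoM`);
* apply `W`: `W u = z ⊗ ℚbar + π · W(c)`, `W (c) ∈ gaussRing A`;
* the residue of `z` lies in `κ_K(j̃(q^d) : d ∣ M')` (`ES/RED/ResField26.gaussRed_mem_fullC`).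
-/
import Mathlib
import Fermat.Agent.T1B.Hecke16.ResFieldEq
import Fermat.Agent.T1B.GaussW77.Wp
import Fermat.Agent.ES.N34.CombW5
import Fermat.Agent.ES.N34.IsoM25

set_option autoImplicit false
set_option linter.unusedSectionVars false

noncomputable section

open HahnSeries ModularCurve IntermediateField

namespace Fermat.Agent.T1B.Hecke16

open Fermat.Agent.RED.Interface4 Fermat.Agent.RED.PUR.GaussGen8
open Fermat.Agent.T1B.Hecke3 Fermat.Agent.T1B.GaussW95 Fermat.Agent.T1B.GaussW77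
open Fermat.Agent.ES.N34.ModelN4 Fermat.Agent.ES.N34.CombA26 Fermat.Agent.ES.N34.ModelDefs9
open Fermat.Agent.RED.DESC Fermat.Agent.RED.DESC.CoeffDescent1 Fermat.Agent.RED.DESC.PlaceExtend27
open Fermat.Agent.RED.BASE Fermat.Agent.RED.BASE.Hauptmodul12 Fermat.Agent.RED.BASE.EtaQuot12

variable {M' p : ℕ} [NeZero M'] [NeZero p] (A : ValuationSubring Qbar)

/-- **(RF1'), side 2**: residues of Gauss elements for an Atkin–Lehner expansion `W` lie in
`κ̄ · F̃_{M'}`. -/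
theorem gaussRes_mem_fullC_W (hp : p.Prime) (hpM : ¬ p ∣ M') (hA : A.LiesOverPrime p)
    {n e₀ : ℕ} [NeZero n] (hb : BaseHyp n e₀) (hnM : n ∣ M')
    (W : Fbar (M' * p) →+* LaurentSeries Qbar)
    (hWα : ∀ f : Fbar M', W (heckeAlphaBar Qbar M' p f) = qExpand Qbar p (f : LaurentSeries Qbar))
    (hWβ : ∀ h : Fbar M', W (heckeBetaBar Qbar M' p h) = (h : LaurentSeries Qbar))
    (hWc : ∀ c : Qbar, W (algebraMap Qbar (Fbar (M' * p)) c) = HahnSeries.C c)
    (H : ∀ f : Fbar (M' * p), f ≠ 0 → Normalisable A (W f))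
    (u : gaussSub A W) :
    gaussRes A W u ∈ modularFunctionFieldFullC (Kap A) M' := by
  have hacl : IsAlgClosure ℚ Qbar := by
    have h : (DivisionRing.toRatAlgebra : Algebra ℚ Qbar) = AlgebraicClosure.instAlgebra ℚ :=
      Subsingleton.elim _ _
    rw [h]
    infer_instance
  have : Normal ℚ Qbar := IsAlgClosure.normal ℚ Qbar
  have : Algebra.IsAlgebraic ℚ Qbar := AlgebraicClosure.isAlgebraic ℚ
  have hu : W (u : Fbar (M' * p)) ∈ gaussRing A :=
    (Fermat.Agent.T1B.Hecke16.mem_gaussSub_iff_mem_gaussRing A W _).1 u.2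
  have hmem : Interface12.TMem n e₀ M' := tMem_of_dvd hb hnM
  have hJ : Fermat.Agent.RED.ModelTargets4.JTarget n e₀ :=
    Fermat.Agent.RED.ModelFinal4.jTarget (tGenBase' hb)
  obtain ⟨K₀, hK₀fin, hK₀⟩ := hcomb_large (A := A) (M' := M') hp hpM hA hJ
  obtain ⟨K₁, hK₁fin, hK₁⟩ := TBridge15.exists_tq_mem n e₀ M' hmem
  obtain ⟨K₃, hK₃fin, hK₃⟩ := hJ
  -- descend `u` to a number field
  obtain ⟨K₂, hK₂, hK₂fin, x', hx', hxu'⟩ :=
    exists_finite_descent (F₀ := modularFunctionFieldFull (M' * p)) (K₀ ⊔ K₁ ⊔ K₃)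
      (u : Fbar (M' * p)).2
  -- pass to the normal closure
  set K : IntermediateField ℚ Qbar := IntermediateField.normalClosure ℚ K₂ Qbar with hKdef
  have hK₂K : K₂ ≤ K := IntermediateField.le_normalClosure K₂
  have hfinK : FiniteDimensional ℚ K := normalClosure.is_finiteDimensional ℚ K₂ Qbar
  have hnorK : Normal ℚ K := normalClosure.normal ℚ K₂ Qbar
  obtain ⟨x, hx, hxx'⟩ := exists_lift_of_le hK₂K hx'
  have hbc : baseChangeHom (M' * p) K ⟨x, hx⟩ = (u : Fbar (M' * p)) :=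
    Subtype.ext (hxx'.trans hxu')
  -- the DVR `A ∩ K`
  have hdvr : IsDiscreteValuationRing ↥(AK A K) :=
    NumberFieldDVR27.isDiscreteValuationRing_AK A K hp.ne_zero hA
  obtain ⟨π, hπirr⟩ := IsDiscreteValuationRing.exists_irreducible ↥(AK A K)
  have hπ : IsUnif (AK A K) π := isUnif_of_irreducible (AK A K) hπirr
  have : Fact p.Prime := ⟨hp⟩
  have : CharP (Res (AK A K)) p := NumberFieldDVR27.charP_residueField_AK A K hp hA
  have hE : FK (M' * p) K ≤ fracField (AK A K) :=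
    Fermat.Agent.RED.PUR.GaussBridge10.FK_le_fracField A K (M' * p)
  have hK₀K : K₀ ≤ K := ((le_sup_left.trans le_sup_left).trans hK₂).trans hK₂K
  have hK₁K : K₁ ≤ K := ((le_sup_right.trans le_sup_left).trans hK₂).trans hK₂K
  have hK₃K : K₃ ≤ K := (le_sup_right.trans hK₂).trans hK₂K
  have ht := hK₁ K hK₁K
  have hjt := hK₃ K hfinK hK₃K
  have hcA := hK₀ K hfinK hK₀K ht hE π hπ
  have hiso := Fermat.Agent.ES.N34.IsoM25.isoM A K M' p hπirr hpM
  have hcB := Fermat.Agent.ES.N34.CombW5.hcomb_O2_of_O1 M' p hπ hE hiso hcA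
  -- `O2` is the restriction of the Gauss ring of `W`
  have hO2 := comap_gaussVal_W_eq_O2 M' p W hWα hWβ hWc hp hpM hA K ht hjt hπ hE H
  have hO2mem : ∀ y : FK (M' * p) K, y ∈ O2 M' p hπ hE ↔
      W (baseChangeHom (M' * p) K y) ∈ gaussRing A := by
    intro y
    rw [← hO2]
    exact Iff.rfl
  have hxO2 : (⟨x, hx⟩ : FK (M' * p) K) ∈ O2 M' p hπ hE := by
    rw [hO2mem, hbc]
    exact hu
  obtain ⟨z, hz, c, hc, hxz⟩ := hcB ⟨x, hx⟩ hxO2
  have hcW : W (baseChangeHom (M' * p) K c) ∈ gaussRing A := (hO2mem c).1 hc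
  -- the congruence in `ℚbar((q))`
  have hπW : W (baseChangeHom (M' * p) K (algebraMap ↥(AK A K) ↥(FK (M' * p) K) π)) =
      coeffMap (algebraMap K Qbar) ((constG (AK A K) π : gaussRing (AK A K)) : LaurentSeries K) := by
    have h : algebraMap ↥(AK A K) ↥(FK (M' * p) K) π =
        algebraMap ↥K ↥(FK (M' * p) K) ((π : ↥(AK A K)) : ↥K) := rfl
    rw [h, baseChangeHom_algebraMap, hWc]
    show _ = coeffMap (algebraMap K Qbar) (HahnSeries.C ((π : ↥(AK A K)) : ↥K))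
    rw [HahnSeries.C_apply, HahnSeries.C_apply, coeffMap_single]
    rfl
  have hser : W (u : Fbar (M' * p)) = coeffMap (algebraMap K Qbar) (z : LaurentSeries K) +
      coeffMap (algebraMap K Qbar) ((constG (AK A K) π : gaussRing (AK A K)) : LaurentSeries K) *
        W (baseChangeHom (M' * p) K c) := by
    have h1 := congrArg (fun y : ↥(FK (M' * p) K) => W (baseChangeHom (M' * p) K y)) hxz
    simp only [map_sub, map_mul] at h1
    rw [hbc, baseChangeHom_beta, hWβ, coe_baseChangeHom, hπW] at h1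
    rw [← h1]
    ring
  -- residues
  have hzA : coeffMap (algebraMap K Qbar) (z : LaurentSeries K) ∈ gaussRing A :=
    coeffMap_mem_gaussRing_of_mem (φ := algebraMap K Qbar) (A := A) hz
  have hπA : coeffMap (algebraMap K Qbar)
      ((constG (AK A K) π : gaussRing (AK A K)) : LaurentSeries K) ∈ gaussRing A :=
    coeffMap_mem_gaussRing_of_mem (φ := algebraMap K Qbar) (A := A) (constG (AK A K) π).2
  have hπ0 : gaussRed A ⟨_, hπA⟩ = 0 := by
    obtain ⟨ρ, hρ⟩ : ∃ ρ : Res (AK A K) →+* Kap A, gaussRed A ⟨_, hπA⟩ =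
        coeffMap ρ (gaussRed (AK A K) (constG (AK A K) π)) :=
      ⟨resO (algebraMap K Qbar) A,
        gaussRed_coeffMap (φ := algebraMap K Qbar) (A := A) (constG (AK A K) π)⟩
    rw [hρ, gaussRed_unif hπ, map_zero]
  have hredu : gaussRed A ⟨W (u : Fbar (M' * p)), hu⟩ = gaussRed A ⟨_, hzA⟩ := by
    have h2 : (⟨W (u : Fbar (M' * p)), hu⟩ : gaussRing A) =
        ⟨_, hzA⟩ + ⟨_, hπA⟩ * ⟨_, hcW⟩ := Subtype.ext hser
    rw [h2, map_add, map_mul, hπ0, zero_mul, add_zero]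
  -- the good level
  have hzF : (z : LaurentSeries K) ∈ modularFunctionFieldFullC (↥K) M' := by
    rw [← Fermat.Agent.RED.PUR.DegBaseChange25.laurentBaseChange_full_eq (L := ↥K) M']
    exact z.2
  have hzres := Fermat.Agent.ES.RED.ResField26.gaussRed_mem_fullC (AK A K) hπirr p M' hpM
    ⟨(z : LaurentSeries K), hz⟩ hzF
  obtain ⟨ρ, hρ⟩ : ∃ ρ : Res (AK A K) →+* Kap A, gaussRed A ⟨_, hzA⟩ =
      coeffMap ρ (gaussRed (AK A K) ⟨(z : LaurentSeries K), hz⟩) :=
    ⟨resO (algebraMap K Qbar) A,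
      gaussRed_coeffMap (φ := algebraMap K Qbar) (A := A) ⟨(z : LaurentSeries K), hz⟩⟩
  rw [Fermat.Agent.T1B.Hecke16.gaussRes_eq_gaussRed, hredu, hρ]
  exact Fermat.Agent.ES.RED.ResidueUnion1.coeffMap_mem_fullC ρ M' hzres

/-! ### Closed forms -/

section Closed

variable (hp : p.Prime) (hpM : ¬ p ∣ M') (hA : A.LiesOverPrime p)
  (W : Fbar (M' * p) →+* LaurentSeries Qbar)
  (hWα : ∀ f : Fbar M', W (heckeAlphaBar Qbar M' p f) = qExpand Qbar p (f : LaurentSeries Qbar))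
  (hWβ : ∀ h : Fbar M', W (heckeBetaBar Qbar M' p h) = (h : LaurentSeries Qbar))
  (hWc : ∀ c : Qbar, W (algebraMap Qbar (Fbar (M' * p)) c) = HahnSeries.C c)
  (H : ∀ f : Fbar (M' * p), f ≠ 0 → Normalisable A (W f))

include hp hpM hA hWα hWβ hWc H

/-- **(RF1'), side 2, `4 ∣ M'`**. -/
theorem gaussRes_mem_fullC_W_four (hM : 4 ∣ M') (u : gaussSub A W) :
    gaussRes A W u ∈ modularFunctionFieldFullC (Kap A) M' :=
  gaussRes_mem_fullC_W A hp hpM hA baseHyp_four hM W hWα hWβ hWc H u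

/-- **(RF1'), side 2, `9 ∣ M'`** (covers `p = 2`). -/
theorem gaussRes_mem_fullC_W_nine (hM : 9 ∣ M') (u : gaussSub A W) :
    gaussRes A W u ∈ modularFunctionFieldFullC (Kap A) M' :=
  gaussRes_mem_fullC_W A hp hpM hA baseHyp_nine hM W hWα hWβ hWc H u

/-- **(RF2'), side 2, `4 ∣ M'`**: the residue field of the Gauss valuation of `W` is the function
field of `X₀(M')` over `κ̄`. -/
theorem resField_W_eq_fullC_four (hM : 4 ∣ M')
    (ι : Qbar →+* Fbar (M' * p)) (hι : ∀ c, W (ι c) = HahnSeries.C c) :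
    resField A W ι hι = modularFunctionFieldFullC (Kap A) M' :=
  le_antisymm
    (resField_le_fullC_of_mem A W ι hι (gaussRes_mem_fullC_W_four A hp hpM hA W hWα hWβ hWc H hM))
    (fullC_le_resField_side2 A (dvd_refl M') W hWβ ι hι)

/-- **(RF2'), side 2, `9 ∣ M'`**. -/
theorem resField_W_eq_fullC_nine (hM : 9 ∣ M')
    (ι : Qbar →+* Fbar (M' * p)) (hι : ∀ c, W (ι c) = HahnSeries.C c) :
    resField A W ι hι = modularFunctionFieldFullC (Kap A) M' :=
  le_antisymm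
    (resField_le_fullC_of_mem A W ι hι (gaussRes_mem_fullC_W_nine A hp hpM hA W hWα hWβ hWc H hM))
    (fullC_le_resField_side2 A (dvd_refl M') W hWβ ι hι)

end Closed

/-! ### The instance `W = W_p` (`ALP90.AL1.Wp`) -/

section Wp

open Fermat.Agent.T1B.ALP90.AL1

variable (M' p) (hp : p.Prime) (hpM : ¬ p ∣ M') (hA : A.LiesOverPrime p)

include hA

theorem gaussRes_Wp_mem_fullC_four (hM : 4 ∣ M') (u : gaussSub A (Wp M' p hp hpM)) :
    gaussRes A (Wp M' p hp hpM) u ∈ modularFunctionFieldFullC (Kap A) M' :=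
  gaussRes_mem_fullC_W_four A hp hpM hA (Wp M' p hp hpM) (Wp_alpha M' p hp hpM)
    (Wp_beta M' p hp hpM) (Wp_const M' p hp hpM) (normalisable_Wp_all M' p hp hpM A) hM u

theorem gaussRes_Wp_mem_fullC_nine (hM : 9 ∣ M') (u : gaussSub A (Wp M' p hp hpM)) :
    gaussRes A (Wp M' p hp hpM) u ∈ modularFunctionFieldFullC (Kap A) M' :=
  gaussRes_mem_fullC_W_nine A hp hpM hA (Wp M' p hp hpM) (Wp_alpha M' p hp hpM)
    (Wp_beta M' p hp hpM) (Wp_const M' p hp hpM) (normalisable_Wp_all M' p hp hpM A) hM u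

theorem resField_Wp_eq_fullC_four (hM : 4 ∣ M')
    (ι : Qbar →+* Fbar (M' * p)) (hι : ∀ c, Wp M' p hp hpM (ι c) = HahnSeries.C c) :
    resField A (Wp M' p hp hpM) ι hι = modularFunctionFieldFullC (Kap A) M' :=
  resField_W_eq_fullC_four A hp hpM hA (Wp M' p hp hpM) (Wp_alpha M' p hp hpM)
    (Wp_beta M' p hp hpM) (Wp_const M' p hp hpM) (normalisable_Wp_all M' p hp hpM A) hM ι hι

theorem resField_Wp_eq_fullC_nine (hM : 9 ∣ M')
    (ι : Qbar →+* Fbar (M' * p)) (hι : ∀ c, Wp M' p hp hpM (ι c) = HahnSeries.C c) :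
    resField A (Wp M' p hp hpM) ι hι = modularFunctionFieldFullC (Kap A) M' :=
  resField_W_eq_fullC_nine A hp hpM hA (Wp M' p hp hpM) (Wp_alpha M' p hp hpM)
    (Wp_beta M' p hp hpM) (Wp_const M' p hp hpM) (normalisable_Wp_all M' p hp hpM A) hM ι hι

end Wp

end Fermat.Agent.T1B.Hecke16
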